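/-
Line bundles on schemes as unit cocycles indexed by the points; the group `LinePic`.
-/
import Mathlib

set_option autoImplicit false
set_option linter.unusedVariables false

universe u

open CategoryTheory AlgebraicGeometry TopologicalSpace Opposite

noncomputable section

namespace Fermat.Agent.Jacobian

/-- Restriction of functions. -/
abbrev res {X : Scheme.{u}} {U V : X.Opens} (h : V ≤ U) : Γ(X, U) →+* Γ(X, V) :=
  (X.presheaf.map (homOfLE h).op).hom

section res

variable {X : Scheme.{u}}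

theorem res_self {U : X.Opens} (h : U ≤ U) (a : Γ(X, U)) : res h a = a := by
  show X.presheaf.map (homOfLE h).op a = a
  rw [Subsingleton.elim (homOfLE h).op (𝟙 _), X.presheaf.map_id]
  rfl

theorem res_res {U V W : X.Opens} (h : V ≤ U) (h' : W ≤ V) (a : Γ(X, U)) :
    res h' (res h a) = res (h'.trans h) a := by
  show X.presheaf.map _ (X.presheaf.map _ a) = X.presheaf.map _ a
  rw [← ConcreteCategory.comp_apply, ← Functor.map_comp]
  rfl

/-- Restriction of units. -/
abbrev resU {U V : X.Opens} (h : V ≤ U) : Γ(X, U)ˣ →* Γ(X, V)ˣ :=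
  Units.map (res h).toMonoidHom

theorem resU_self {U : X.Opens} (h : U ≤ U) (a : Γ(X, U)ˣ) : resU h a = a :=
  Units.ext (res_self h _)

theorem resU_resU {U V W : X.Opens} (h : V ≤ U) (h' : W ≤ V) (a : Γ(X, U)ˣ) :
    resU h' (resU h a) = resU (h'.trans h) a :=
  Units.ext (res_res h h' _)

end res

/-- A line bundle given by transition units on neighbourhoods indexed by the points. With local
frames `e x`, one has `e y = g x y • e x`. -/
structure LineSys (X : Scheme.{u}) where
  U : X → X.Opens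
  mem : ∀ x, x ∈ U x
  g : ∀ (x y : X) (V : X.Opens), V ≤ U x → V ≤ U y → Γ(X, V)ˣ
  g_res : ∀ (x y : X) {V W : X.Opens} (h : W ≤ V) (hx : V ≤ U x) (hy : V ≤ U y),
    resU h (g x y V hx hy) = g x y W (h.trans hx) (h.trans hy)
  g_mul : ∀ (x y z : X) (V : X.Opens) (hx : V ≤ U x) (hy : V ≤ U y) (hz : V ≤ U z),
    g x y V hx hy * g y z V hy hz = g x z V hx hz

namespace LineSys

variable {X Y : Scheme.{u}}

theorem g_self (L : LineSys X) (x : X) (V : X.Opens) (h h' : V ≤ L.U x) : L.g x x V h h' = 1 := by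
  simpa using L.g_mul x x x V h h' h'

theorem g_symm (L : LineSys X) (x y : X) (V : X.Opens) (hx : V ≤ L.U x) (hy : V ≤ L.U y) :
    L.g y x V hy hx = (L.g x y V hx hy)⁻¹ :=
  eq_inv_of_mul_eq_one_right (by rw [L.g_mul, g_self])

/-- An isomorphism of systems. -/
structure Iso (L L' : LineSys X) where
  h : ∀ (x a : X) (V : X.Opens), V ≤ L.U x → V ≤ L'.U a → Γ(X, V)ˣ
  h_res : ∀ (x a : X) {V W : X.Opens} (i : W ≤ V) (hx : V ≤ L.U x) (ha : V ≤ L'.U a),
    resU i (h x a V hx ha) = h x a W (i.trans hx) (i.trans ha)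
  g_h : ∀ (x y a : X) (V : X.Opens) (hx : V ≤ L.U x) (hy : V ≤ L.U y) (ha : V ≤ L'.U a),
    L.g x y V hx hy * h y a V hy ha = h x a V hx ha
  h_g : ∀ (x a b : X) (V : X.Opens) (hx : V ≤ L.U x) (ha : V ≤ L'.U a) (hb : V ≤ L'.U b),
    h x a V hx ha * L'.g a b V ha hb = h x b V hx hb

/-- The identity. -/
def Iso.refl (L : LineSys X) : Iso L L where
  h := L.g
  h_res := L.g_res
  g_h := L.g_mul
  h_g := L.g_mul

/-- The inverse. -/
def Iso.symm {L L' : LineSys X} (e : Iso L L') : Iso L' L where
  h a x V ha hx := (e.h x a V hx ha)⁻¹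
  h_res a x V W i ha hx := by simp [map_inv, e.h_res]
  g_h a b x V ha hb hx := by
    rw [← e.h_g x a b V hx ha hb]
    rw [mul_inv_rev, ← mul_assoc, mul_inv_cancel, one_mul]
  h_g a x y V ha hx hy := by
    rw [← e.g_h x y a V hx hy ha, mul_inv_rev]
    rw [mul_assoc, inv_mul_cancel, mul_one]

/-- Units glue. -/
theorem existsUnique_glue_units {ι : Type*} (V : ι → X.Opens) (U : X.Opens) (hV : ∀ i, V i ≤ U)
    (hU : U ≤ iSup V) (s : ∀ i, Γ(X, V i)ˣ)
    (hs : ∀ i j, resU (inf_le_left : V i ⊓ V j ≤ V i) (s i) = resU inf_le_right (s j)) :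
    ∃! t : Γ(X, U)ˣ, ∀ i, resU (hV i) t = s i := by
  obtain ⟨a, ha, hu⟩ := X.sheaf.existsUnique_gluing' V U (fun i => homOfLE (hV i)) hU
    (fun i => (s i : Γ(X, V i))) (fun i j => congrArg Units.val (hs i j))
  obtain ⟨b, hb, -⟩ := X.sheaf.existsUnique_gluing' V U (fun i => homOfLE (hV i)) hU
    (fun i => ((s i)⁻¹ : Γ(X, V i)ˣ).1)
    (fun i j => congrArg Units.inv (hs i j))
  have key : ∀ a' b' : Γ(X, U), (∀ i, res (hV i) a' = res (hV i) b') → a' = b' := fun a' b' h =>
    X.sheaf.eq_of_locally_eq' V U (fun i => homOfLE (hV i)) hU a' b' h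
  let a' : Γ(X, U) := a
  let b' : Γ(X, U) := b
  have ha' : ∀ i, res (hV i) a' = s i := ha
  have hb' : ∀ i, res (hV i) b' = ((s i)⁻¹ : Γ(X, V i)ˣ).1 := hb
  have hab : a' * b' = 1 := key _ _ fun i => by
    rw [map_mul, map_one, ha', hb']
    exact (s i).mul_inv
  refine ⟨⟨a', b', hab, (mul_comm _ _).trans hab⟩, fun i => Units.ext (ha' i), fun t ht => ?_⟩
  exact Units.ext (key _ _ fun i => (congrArg Units.val (ht i)).trans (ha' i).symm)

/-- Units are determined locally. -/
theorem units_ext {ι : Type*} (V : ι → X.Opens) (U : X.Opens) (hV : ∀ i, V i ≤ U)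
    (hU : U ≤ iSup V) (a b : Γ(X, U)ˣ) (h : ∀ i, resU (hV i) a = resU (hV i) b) : a = b :=
  Units.ext (X.sheaf.eq_of_locally_eq' V U (fun i => homOfLE (hV i)) hU _ _
    fun i => congrArg Units.val (h i))

theorem le_iSup_U (L : LineSys X) (V : X.Opens) : V ≤ iSup fun a => V ⊓ L.U a :=
  fun p hp => Opens.mem_iSup.mpr ⟨p, hp, L.mem p⟩

theorem nonempty_trans {L L' L'' : LineSys X} (e : Iso L L') (e' : Iso L' L'') :
    Nonempty (Iso L L'') := by
  have hx : ∀ (x c : X) (V : X.Opens) (hx : V ≤ L.U x) (hc : V ≤ L''.U c),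
      ∃! t : Γ(X, V)ˣ, ∀ a, resU (inf_le_left : V ⊓ L'.U a ≤ V) t =
        e.h x a _ (inf_le_left.trans hx) inf_le_right *
          e'.h a c _ inf_le_right (inf_le_left.trans hc) := fun x c V hx hc =>
    existsUnique_glue_units _ _ _ (L'.le_iSup_U V) _ fun a b => by
      simp only [map_mul, e.h_res, e'.h_res]
      rw [← e.h_g x a b _ _ _ (inf_le_right.trans inf_le_right)]
      rw [mul_assoc, e'.g_h]
  choose t ht hu using hx
  refine ⟨{ h := t, h_res := ?_, g_h := ?_, h_g := ?_ }⟩
  · intro x c V W i hx hc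
    refine hu x c W _ _ _ fun a => ?_
    have := congrArg (resU (inf_le_inf_right (L'.U a) i)) (ht x c V hx hc a)
    rw [map_mul, e.h_res, e'.h_res, resU_resU] at this
    rw [resU_resU]
    exact this
  · intro x y c V hx hy hc
    refine hu x c V hx hc _ fun a => ?_
    rw [map_mul, ht, L.g_res, ← mul_assoc, e.g_h]
  · intro x c d V hx hc hd
    refine hu x d V hx hd _ fun a => ?_
    rw [map_mul, ht, L''.g_res, mul_assoc, e'.h_g]

instance setoid (X : Scheme.{u}) : Setoid (LineSys X) where
  r L L' := Nonempty (Iso L L')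
  iseqv := ⟨fun L => ⟨Iso.refl L⟩, fun ⟨e⟩ => ⟨e.symm⟩, fun ⟨e⟩ ⟨e'⟩ => nonempty_trans e e'⟩

/-- The trivial system. -/
def triv (X : Scheme.{u}) : LineSys X where
  U _ := ⊤
  mem _ := trivial
  g _ _ _ _ _ := 1
  g_res _ _ _ _ _ _ _ := map_one _
  g_mul _ _ _ _ _ _ _ := one_mul _

/-- The tensor product. -/
def tens (L L' : LineSys X) : LineSys X where
  U x := L.U x ⊓ L'.U x
  mem x := ⟨L.mem x, L'.mem x⟩
  g x y V hx hy := L.g x y V (hx.trans inf_le_left) (hy.trans inf_le_left) *
    L'.g x y V (hx.trans inf_le_right) (hy.trans inf_le_right)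
  g_res x y V W h hx hy := by simp [map_mul, L.g_res, L'.g_res]
  g_mul x y z V hx hy hz := by rw [mul_mul_mul_comm, L.g_mul, L'.g_mul]

/-- The dual. -/
def dual (L : LineSys X) : LineSys X where
  U := L.U
  mem := L.mem
  g x y V hx hy := (L.g x y V hx hy)⁻¹
  g_res x y V W h hx hy := by simp [map_inv, L.g_res]
  g_mul x y z V hx hy hz := by rw [← mul_inv, L.g_mul]

/-- Isomorphisms multiply. -/
def Iso.tens {L L' M M' : LineSys X} (e : Iso L L') (e' : Iso M M') :
    Iso (L.tens M) (L'.tens M') where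
  h x a V hx ha := e.h x a V (hx.trans inf_le_left) (ha.trans inf_le_left) *
    e'.h x a V (hx.trans inf_le_right) (ha.trans inf_le_right)
  h_res x a V W i hx ha := by simp [map_mul, e.h_res, e'.h_res]
  g_h x y a V hx hy ha := by
    simp only [LineSys.tens]
    rw [mul_mul_mul_comm, e.g_h, e'.g_h]
  h_g x a b V hx ha hb := by
    simp only [LineSys.tens]
    rw [mul_mul_mul_comm, e.h_g, e'.h_g]

/-- Isomorphisms dualise. -/
def Iso.dual {L L' : LineSys X} (e : Iso L L') : Iso L.dual L'.dual where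
  h x a V hx ha := (e.h x a V hx ha)⁻¹
  h_res x a V W i hx ha := (map_inv _ _).trans (congrArg _ (e.h_res x a i hx ha))
  g_h x y a V hx hy ha := (mul_inv _ _).symm.trans (congrArg _ (e.g_h x y a V hx hy ha))
  h_g x a b V hx ha hb := (mul_inv _ _).symm.trans (congrArg _ (e.h_g x a b V hx ha hb))

/-- An isomorphism from a family of units indexed by pairs of points, defined from one
comparison of transition functions: a common refinement. -/
def Iso.ofEq {L L' : LineSys X} (G : ∀ (x a : X) (V : X.Opens), V ≤ L.U x → V ≤ L'.U a → Γ(X, V)ˣ)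
    (h_res : ∀ (x a : X) {V W : X.Opens} (i : W ≤ V) (hx : V ≤ L.U x) (ha : V ≤ L'.U a),
      resU i (G x a V hx ha) = G x a W (i.trans hx) (i.trans ha))
    (g_h : ∀ (x y a : X) (V : X.Opens) (hx : V ≤ L.U x) (hy : V ≤ L.U y) (ha : V ≤ L'.U a),
      L.g x y V hx hy * G y a V hy ha = G x a V hx ha)
    (h_g : ∀ (x a b : X) (V : X.Opens) (hx : V ≤ L.U x) (ha : V ≤ L'.U a) (hb : V ≤ L'.U b),
      G x a V hx ha * L'.g a b V ha hb = G x b V hx hb) : Iso L L' :=
  ⟨G, h_res, g_h, h_g⟩

theorem tens_comm (L M : LineSys X) : Nonempty (Iso (L.tens M) (M.tens L)) :=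
  ⟨{ h := fun x a V hx ha => L.g x a V (hx.trans inf_le_left) (ha.trans inf_le_right) *
        M.g x a V (hx.trans inf_le_right) (ha.trans inf_le_left)
     h_res := fun x a V W i hx ha => by simp [map_mul, L.g_res, M.g_res]
     g_h := fun x y a V hx hy ha => by
      simp only [LineSys.tens]
      rw [mul_mul_mul_comm, L.g_mul, M.g_mul]
     h_g := fun x a b V hx ha hb => by
      simp only [LineSys.tens]
      rw [mul_comm (M.g a b V _ _), mul_mul_mul_comm, L.g_mul, M.g_mul] }⟩

theorem tens_assoc (L M N : LineSys X) :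
    Nonempty (Iso ((L.tens M).tens N) (L.tens (M.tens N))) :=
  ⟨{ h := fun x a V hx ha =>
        L.g x a V (hx.trans (inf_le_left.trans inf_le_left)) (ha.trans inf_le_left) *
        (M.g x a V (hx.trans (inf_le_left.trans inf_le_right))
            (ha.trans (inf_le_right.trans inf_le_left)) *
          N.g x a V (hx.trans inf_le_right) (ha.trans (inf_le_right.trans inf_le_right)))
     h_res := fun x a V W i hx ha => by simp [map_mul, L.g_res, M.g_res, N.g_res]
     g_h := fun x y a V hx hy ha => by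
      simp only [LineSys.tens]
      rw [mul_assoc (L.g x y V _ _), mul_mul_mul_comm, mul_mul_mul_comm (M.g x y V _ _),
        L.g_mul, M.g_mul, N.g_mul]
     h_g := fun x a b V hx ha hb => by
      simp only [LineSys.tens]
      rw [mul_mul_mul_comm, mul_mul_mul_comm (M.g x a V _ _), L.g_mul, M.g_mul, N.g_mul] }⟩

theorem triv_tens (L : LineSys X) : Nonempty (Iso ((triv X).tens L) L) :=
  ⟨{ h := fun x a V hx ha => L.g x a V (hx.trans inf_le_right) ha
     h_res := fun x a V W i hx ha => L.g_res x a i _ _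
     g_h := fun x y a V hx hy ha => by
      simp only [LineSys.tens, triv, one_mul]
      exact L.g_mul ..
     h_g := fun x a b V hx ha hb => L.g_mul .. }⟩

theorem dual_tens (L : LineSys X) : Nonempty (Iso (L.dual.tens L) (triv X)) :=
  ⟨{ h := fun _ _ _ _ _ => 1
     h_res := fun x a V W i hx ha => map_one _
     g_h := fun x y a V hx hy ha => by simp [LineSys.tens, LineSys.dual]
     h_g := fun x a b V hx ha hb => by simp [triv] }⟩

end LineSys

/-- Classes of line systems. -/
def LinePic (X : Scheme.{u}) : Type u := Quotient (LineSys.setoid X)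

namespace LinePic

variable {X : Scheme.{u}}

/-- The class of a system. -/
def mk (L : LineSys X) : LinePic X := Quotient.mk _ L

theorem mk_eq_mk {L L' : LineSys X} : mk L = mk L' ↔ Nonempty (LineSys.Iso L L') := Quotient.eq

theorem mk_surjective : Function.Surjective (mk (X := X)) := Quotient.mk_surjective

instance : One (LinePic X) := ⟨mk (LineSys.triv X)⟩

instance : Mul (LinePic X) :=
  ⟨Quotient.map₂ LineSys.tens fun _ _ h _ _ h' => ⟨h.some.tens h'.some⟩⟩

instance : Inv (LinePic X) := ⟨Quotient.map LineSys.dual fun _ _ h => ⟨h.some.dual⟩⟩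

theorem one_def : (1 : LinePic X) = mk (LineSys.triv X) := rfl

theorem mk_mul (L L' : LineSys X) : mk L * mk L' = mk (L.tens L') := rfl

theorem mk_inv (L : LineSys X) : (mk L)⁻¹ = mk L.dual := rfl

private theorem mul_comm' (a b : LinePic X) : a * b = b * a := by
  induction a, b using Quotient.inductionOn₂ with
  | _ L M => exact mk_eq_mk.mpr (L.tens_comm M)

private theorem one_mul' (a : LinePic X) : 1 * a = a := by
  induction a using Quotient.inductionOn with
  | _ L => exact mk_eq_mk.mpr L.triv_tens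

instance : CommGroup (LinePic X) where
  mul_assoc a b c := by
    induction a, b, c using Quotient.inductionOn₃ with
    | _ L M N => exact mk_eq_mk.mpr (L.tens_assoc M N)
  one_mul := one_mul'
  mul_one a := (mul_comm' a 1).trans (one_mul' a)
  inv_mul_cancel a := by
    induction a using Quotient.inductionOn with
    | _ L => exact mk_eq_mk.mpr L.dual_tens
  mul_comm := mul_comm'

end LinePic

end Fermat.Agent.Jacobian
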