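/-
Pullback of line systems and of `LinePic`.
-/
import Fermat.Agent.Jacobian.Line.Basic

set_option autoImplicit false
set_option linter.unusedVariables false

universe u

open CategoryTheory AlgebraicGeometry TopologicalSpace Opposite

noncomputable section

namespace Fermat.Agent.Jacobian

variable {X Y Z : Scheme.{u}}

/-- The inverse image of a unit. -/
abbrev appU (f : X ⟶ Y) {U : Y.Opens} {V : X.Opens} (e : V ≤ f ⁻¹ᵁ U) :
    Γ(Y, U)ˣ →* Γ(X, V)ˣ :=
  Units.map (f.appLE U V e).hom.toMonoidHom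

theorem res_appLE (f : X ⟶ Y) {U : Y.Opens} {V W : X.Opens} (e : V ≤ f ⁻¹ᵁ U) (i : W ≤ V)
    (a : Γ(Y, U)) : res i (f.appLE U V e a) = f.appLE U W (i.trans e) a := by
  show X.presheaf.map _ (f.appLE U V e a) = _
  rw [← ConcreteCategory.comp_apply, Scheme.Hom.appLE_map]

theorem appLE_res (f : X ⟶ Y) {U U' : Y.Opens} {V : X.Opens} (i : U ≤ U') (e : V ≤ f ⁻¹ᵁ U)
    (a : Γ(Y, U')) : f.appLE U V e (res i a) = f.appLE U' V (fun _ h => i (e h)) a := by
  show f.appLE U V e (Y.presheaf.map _ a) = _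
  rw [← ConcreteCategory.comp_apply, Scheme.Hom.map_appLE]

theorem resU_appU (f : X ⟶ Y) {U : Y.Opens} {V W : X.Opens} (e : V ≤ f ⁻¹ᵁ U) (i : W ≤ V)
    (a : Γ(Y, U)ˣ) : resU i (appU f e a) = appU f (i.trans e) a :=
  Units.ext (res_appLE f e i _)

theorem appU_resU (f : X ⟶ Y) {U U' : Y.Opens} {V : X.Opens} (i : U ≤ U') (e : V ≤ f ⁻¹ᵁ U)
    (a : Γ(Y, U')ˣ) : appU f e (resU i a) = appU f (fun _ h => i (e h)) a :=
  Units.ext (appLE_res f i e _)

theorem appU_appU (f : X ⟶ Y) (g : Y ⟶ Z) {U : Z.Opens} {V : Y.Opens} {W : X.Opens}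
    (e : V ≤ g ⁻¹ᵁ U) (e' : W ≤ f ⁻¹ᵁ V) (a : Γ(Z, U)ˣ) :
    appU f e' (appU g e a) = appU (f ≫ g) (show W ≤ (f ≫ g) ⁻¹ᵁ U from fun _ h => e (e' h)) a := by
  refine Units.ext ?_
  show f.appLE V W e' (g.appLE U V e a) = _
  rw [← ConcreteCategory.comp_apply, Scheme.Hom.appLE_comp_appLE]
  rfl

namespace LineSys

/-- Pullback. -/
def pull (f : X ⟶ Y) (L : LineSys Y) : LineSys X where
  U x := f ⁻¹ᵁ L.U (f x)
  mem x := L.mem (f x)
  g x y V hx hy := appU f (show V ≤ f ⁻¹ᵁ (L.U (f x) ⊓ L.U (f y)) from fun _ h => ⟨hx h, hy h⟩)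
    (L.g (f x) (f y) _ inf_le_left inf_le_right)
  g_res x y V W i hx hy := resU_appU f _ i _
  g_mul x y z V hx hy hz := by
    let T := L.U (f x) ⊓ L.U (f y) ⊓ L.U (f z)
    have hT : V ≤ f ⁻¹ᵁ T := fun _ h => ⟨⟨hx h, hy h⟩, hz h⟩
    have key : ∀ (a b : Y) (ha : T ≤ L.U a) (hb : T ≤ L.U b)
        (e : V ≤ f ⁻¹ᵁ (L.U a ⊓ L.U b)),
        appU f e (L.g a b _ inf_le_left inf_le_right) = appU f hT (L.g a b T ha hb) := by
      intro a b ha hb e
      rw [← L.g_res a b (le_inf ha hb) inf_le_left inf_le_right, appU_resU]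
    rw [key _ _ (inf_le_left.trans inf_le_left) (inf_le_left.trans inf_le_right),
      key _ _ (inf_le_left.trans inf_le_right) inf_le_right,
      key _ _ (inf_le_left.trans inf_le_left) inf_le_right, ← map_mul, L.g_mul]

/-- The transition function of a pullback, seen on any smaller open of the base. -/
theorem pull_g (f : X ⟶ Y) (L : LineSys Y) (x y : X) (V : X.Opens) (T : Y.Opens)
    (hx : V ≤ (L.pull f).U x) (hy : V ≤ (L.pull f).U y) (hTx : T ≤ L.U (f x))
    (hTy : T ≤ L.U (f y)) (hT : V ≤ f ⁻¹ᵁ T) :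
    (L.pull f).g x y V hx hy = appU f hT (L.g (f x) (f y) T hTx hTy) := by
  rw [← L.g_res _ _ (le_inf hTx hTy) inf_le_left inf_le_right, appU_resU]
  rfl

/-- Isomorphisms pull back. -/
def Iso.pull (f : X ⟶ Y) {L L' : LineSys Y} (e : Iso L L') : Iso (L.pull f) (L'.pull f) where
  h x a V hx ha := appU f (show V ≤ f ⁻¹ᵁ (L.U (f x) ⊓ L'.U (f a)) from fun _ h => ⟨hx h, ha h⟩)
    (e.h (f x) (f a) _ inf_le_left inf_le_right)
  h_res x a V W i hx ha := resU_appU f _ i _
  g_h x y a V hx hy ha := by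
    let T := L.U (f x) ⊓ L.U (f y) ⊓ L'.U (f a)
    have hT : V ≤ f ⁻¹ᵁ T := fun _ h => ⟨⟨hx h, hy h⟩, ha h⟩
    have key : ∀ (p : Y) (hp : T ≤ L.U p) (hq : T ≤ L'.U (f a))
        (i : V ≤ f ⁻¹ᵁ (L.U p ⊓ L'.U (f a))),
        appU f i (e.h p (f a) _ inf_le_left inf_le_right) = appU f hT (e.h p (f a) T hp hq) := by
      intro p hp hq i
      rw [← e.h_res p (f a) (le_inf hp hq) inf_le_left inf_le_right, appU_resU]
    rw [key _ (inf_le_left.trans inf_le_left) inf_le_right,
      key _ (inf_le_left.trans inf_le_right) inf_le_right,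
      LineSys.pull_g f L x y V T hx hy (inf_le_left.trans inf_le_left)
        (inf_le_left.trans inf_le_right) hT, ← map_mul, e.g_h]
  h_g x a b V hx ha hb := by
    let T := L.U (f x) ⊓ L'.U (f a) ⊓ L'.U (f b)
    have hT : V ≤ f ⁻¹ᵁ T := fun _ h => ⟨⟨hx h, ha h⟩, hb h⟩
    have key : ∀ (q : Y) (hp : T ≤ L.U (f x)) (hq : T ≤ L'.U q)
        (i : V ≤ f ⁻¹ᵁ (L.U (f x) ⊓ L'.U q)),
        appU f i (e.h (f x) q _ inf_le_left inf_le_right) = appU f hT (e.h (f x) q T hp hq) := by
      intro q hp hq i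
      rw [← e.h_res (f x) q (le_inf hp hq) inf_le_left inf_le_right, appU_resU]
    rw [key _ (inf_le_left.trans inf_le_left) (inf_le_left.trans inf_le_right),
      key _ (inf_le_left.trans inf_le_left) inf_le_right,
      LineSys.pull_g f L' a b V T ha hb (inf_le_left.trans inf_le_right) inf_le_right hT,
      ← map_mul, e.h_g]

theorem pull_tens (f : X ⟶ Y) (L M : LineSys Y) :
    Nonempty (Iso ((L.tens M).pull f) ((L.pull f).tens (M.pull f))) :=
  ⟨{ h := fun x a V hx ha => ((L.pull f).tens (M.pull f)).g x a V hx ha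
     h_res := fun x a V W i hx ha => ((L.pull f).tens (M.pull f)).g_res x a i hx ha
     g_h := fun x y a V hx hy ha => by
      have : ((L.tens M).pull f).g x y V hx hy = ((L.pull f).tens (M.pull f)).g x y V hx hy := by
        show appU f _ (_ * _) = _ * _
        rw [map_mul]
        congr 1
        · exact (LineSys.pull_g f L x y V _ _ _ _ _ _).symm
        · exact (LineSys.pull_g f M x y V _ _ _ _ _ _).symm
      rw [this]
      exact ((L.pull f).tens (M.pull f)).g_mul x y a V hx hy ha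
     h_g := fun x a b V hx ha hb => ((L.pull f).tens (M.pull f)).g_mul x a b V hx ha hb }⟩

theorem pull_id (L : LineSys X) : Nonempty (Iso (L.pull (𝟙 X)) L) :=
  ⟨{ h := fun x a V hx ha => L.g x a V hx ha
     h_res := fun x a V W i hx ha => L.g_res x a i hx ha
     g_h := fun x y a V hx hy ha => by
      have : (L.pull (𝟙 X)).g x y V hx hy = L.g x y V hx hy := by
        rw [LineSys.pull_g (𝟙 X) L x y V V hx hy hx hy le_rfl]
        refine Units.ext ?_
        show res (le_refl V) _ = _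
        exact res_self _ _
      rw [this]
      exact L.g_mul x y a V hx hy ha
     h_g := fun x a b V hx ha hb => L.g_mul x a b V hx ha hb }⟩

theorem pull_comp (f : X ⟶ Y) (g : Y ⟶ Z) (L : LineSys Z) :
    Nonempty (Iso (L.pull (f ≫ g)) ((L.pull g).pull f)) :=
  ⟨{ h := fun x a V hx ha => (L.pull (f ≫ g)).g x a V hx ha
     h_res := fun x a V W i hx ha => (L.pull (f ≫ g)).g_res x a i hx ha
     g_h := fun x y a V hx hy ha => (L.pull (f ≫ g)).g_mul x y a V hx hy ha
     h_g := fun x a b V hx ha hb => by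
      have : ((L.pull g).pull f).g a b V ha hb = (L.pull (f ≫ g)).g a b V ha hb := by
        show appU f _ (appU g _ _) = _
        rw [appU_appU]
        exact (LineSys.pull_g (f ≫ g) L a b V _ _ _ _ _ _).symm
      rw [this]
      exact (L.pull (f ≫ g)).g_mul x a b V hx ha hb }⟩

end LineSys

namespace LinePic

/-- Pullback of classes. -/
def pullback (f : X ⟶ Y) : LinePic Y →* LinePic X :=
  MonoidHom.mk' (Quotient.map (LineSys.pull f) fun _ _ h => ⟨h.some.pull f⟩) fun a b => by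
    induction a, b using Quotient.inductionOn₂ with
    | _ L M => exact mk_eq_mk.mpr (LineSys.pull_tens f L M)

theorem pullback_mk (f : X ⟶ Y) (L : LineSys Y) : pullback f (mk L) = mk (L.pull f) := rfl

theorem pullback_id : pullback (𝟙 X) = MonoidHom.id (LinePic X) :=
  MonoidHom.ext fun a => Quotient.inductionOn a fun L => mk_eq_mk.mpr L.pull_id

theorem pullback_comp (f : X ⟶ Y) (g : Y ⟶ Z) :
    pullback (f ≫ g) = (pullback f).comp (pullback g) :=
  MonoidHom.ext fun a => Quotient.inductionOn a fun L => mk_eq_mk.mpr (L.pull_comp f g)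

theorem pullback_pullback (f : X ⟶ Y) (g : Y ⟶ Z) (a : LinePic Z) :
    pullback f (pullback g a) = pullback (f ≫ g) a := by
  rw [pullback_comp]
  rfl

end LinePic

end Fermat.Agent.Jacobian
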