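/-
Sections of a line system over an open set.
-/
import Fermat.Agent.Jacobian.Line.Pullback

set_option autoImplicit false
set_option linter.unusedVariables false

universe u

open CategoryTheory AlgebraicGeometry TopologicalSpace Opposite

noncomputable section

namespace Fermat.Agent.Jacobian

namespace LineSys

variable {X Y : Scheme.{u}} (L : LineSys X)

/-- Compatible families of coordinates: a section `σ = s x • e x`. -/
def secAddSubgroup (V : X.Opens) :
    AddSubgroup (∀ (x : X) (W : {W : X.Opens // W ≤ V ∧ W ≤ L.U x}), Γ(X, W.1)) where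
  carrier := {s | (∀ (x : X) (W W' : X.Opens) (i : W' ≤ W) (h : W ≤ V) (hx : W ≤ L.U x),
      res i (s x ⟨W, h, hx⟩) = s x ⟨W', i.trans h, i.trans hx⟩) ∧
    ∀ (x y : X) (W : X.Opens) (h : W ≤ V) (hx : W ≤ L.U x) (hy : W ≤ L.U y),
      s x ⟨W, h, hx⟩ = (L.g x y W hx hy : Γ(X, W)) * s y ⟨W, h, hy⟩}
  zero_mem' := ⟨fun x W W' i h hx => map_zero (res i),
    fun x y W h hx hy => (mul_zero _).symm⟩
  add_mem' {s t} hs ht := ⟨fun x W W' i h hx =>
      (map_add (res i) _ _).trans (congrArg₂ (· + ·) (hs.1 x W W' i h hx) (ht.1 x W W' i h hx)),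
    fun x y W h hx hy =>
      (congrArg₂ (· + ·) (hs.2 x y W h hx hy) (ht.2 x y W h hx hy)).trans (mul_add _ _ _).symm⟩
  neg_mem' {s} hs := ⟨fun x W W' i h hx =>
      (map_neg (res i) _).trans (congrArg _ (hs.1 x W W' i h hx)),
    fun x y W h hx hy => (congrArg _ (hs.2 x y W h hx hy)).trans (mul_neg _ _).symm⟩

/-- Sections over `V`. -/
def Sec (V : X.Opens) : Type u := L.secAddSubgroup V

instance (V : X.Opens) : AddCommGroup (L.Sec V) :=
  inferInstanceAs (AddCommGroup (L.secAddSubgroup V))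

variable {L}

namespace Sec

variable {V : X.Opens}

/-- The coordinate in the frame at `x`. -/
def coord (s : L.Sec V) (x : X) (W : X.Opens) (h : W ≤ V) (hx : W ≤ L.U x) : Γ(X, W) :=
  (s : L.secAddSubgroup V).1 x ⟨W, h, hx⟩

/-- Constructor. -/
def mk' (s : ∀ (x : X) (W : X.Opens), W ≤ V → W ≤ L.U x → Γ(X, W))
    (h₁ : ∀ (x : X) (W W' : X.Opens) (i : W' ≤ W) (h : W ≤ V) (hx : W ≤ L.U x),
      res i (s x W h hx) = s x W' (i.trans h) (i.trans hx))
    (h₂ : ∀ (x y : X) (W : X.Opens) (h : W ≤ V) (hx : W ≤ L.U x) (hy : W ≤ L.U y),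
      s x W h hx = (L.g x y W hx hy : Γ(X, W)) * s y W h hy) : L.Sec V :=
  (⟨fun x W => s x W.1 W.2.1 W.2.2, h₁, h₂⟩ : L.secAddSubgroup V)

@[simp]
theorem coord_mk' (s : ∀ (x : X) (W : X.Opens), W ≤ V → W ≤ L.U x → Γ(X, W)) (h₁ h₂) (x : X)
    (W : X.Opens) (h : W ≤ V) (hx : W ≤ L.U x) : (mk' s h₁ h₂).coord x W h hx = s x W h hx := rfl

@[ext]
theorem ext {s t : L.Sec V}
    (H : ∀ (x : X) (W : X.Opens) (h : W ≤ V) (hx : W ≤ L.U x),
      s.coord x W h hx = t.coord x W h hx) : s = t :=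
  Subtype.ext (funext fun x => funext fun W => H x W.1 W.2.1 W.2.2)

theorem coord_res (s : L.Sec V) (x : X) {W W' : X.Opens} (i : W' ≤ W) (h : W ≤ V)
    (hx : W ≤ L.U x) : res i (s.coord x W h hx) = s.coord x W' (i.trans h) (i.trans hx) :=
  (s : L.secAddSubgroup V).2.1 x W W' i h hx

theorem coord_g (s : L.Sec V) (x y : X) (W : X.Opens) (h : W ≤ V) (hx : W ≤ L.U x)
    (hy : W ≤ L.U y) : s.coord x W h hx = (L.g x y W hx hy : Γ(X, W)) * s.coord y W h hy :=
  (s : L.secAddSubgroup V).2.2 x y W h hx hy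

@[simp]
theorem coord_zero (x : X) (W : X.Opens) (h : W ≤ V) (hx : W ≤ L.U x) :
    (0 : L.Sec V).coord x W h hx = 0 := rfl

@[simp]
theorem coord_add (s t : L.Sec V) (x : X) (W : X.Opens) (h : W ≤ V) (hx : W ≤ L.U x) :
    (s + t).coord x W h hx = s.coord x W h hx + t.coord x W h hx := rfl

@[simp]
theorem coord_neg (s : L.Sec V) (x : X) (W : X.Opens) (h : W ≤ V) (hx : W ≤ L.U x) :
    (-s).coord x W h hx = -s.coord x W h hx := rfl

@[simp]
theorem coord_sub (s t : L.Sec V) (x : X) (W : X.Opens) (h : W ≤ V) (hx : W ≤ L.U x) :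
    (s - t).coord x W h hx = s.coord x W h hx - t.coord x W h hx := rfl

instance : SMul Γ(X, V) (L.Sec V) :=
  ⟨fun r s => mk' (fun x W h hx => res h r * s.coord x W h hx)
    (fun x W W' i h hx => by rw [map_mul, res_res, s.coord_res])
    (fun x y W h hx hy => by rw [s.coord_g x y W h hx hy, mul_left_comm])⟩

@[simp]
theorem coord_smul (r : Γ(X, V)) (s : L.Sec V) (x : X) (W : X.Opens) (h : W ≤ V)
    (hx : W ≤ L.U x) : (r • s).coord x W h hx = res h r * s.coord x W h hx := rfl

instance : Module Γ(X, V) (L.Sec V) where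
  one_smul s := by ext; simp
  mul_smul a b s := by ext; simp [mul_assoc]
  smul_zero a := by ext; simp
  smul_add a s t := by ext; simp [mul_add]
  add_smul a b s := by ext; simp [add_mul]
  zero_smul s := by ext; simp

/-- Restriction of sections. -/
def restrict {V' : X.Opens} (h : V' ≤ V) (s : L.Sec V) : L.Sec V' :=
  mk' (fun x W hW hx => s.coord x W (hW.trans h) hx) (fun x W W' i hW hx => s.coord_res x i _ _)
    (fun x y W hW hx hy => s.coord_g x y W _ hx hy)

@[simp]
theorem coord_restrict {V' : X.Opens} (h : V' ≤ V) (s : L.Sec V) (x : X) (W : X.Opens)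
    (hW : W ≤ V') (hx : W ≤ L.U x) :
    (s.restrict h).coord x W hW hx = s.coord x W (hW.trans h) hx := rfl

/-- The product of sections is a section of the tensor product. -/
def mul {M : LineSys X} (s : L.Sec V) (t : M.Sec V) : (L.tens M).Sec V :=
  mk' (fun x W h hx => s.coord x W h (hx.trans inf_le_left) *
      t.coord x W h (hx.trans inf_le_right))
    (fun x W W' i h hx => by rw [map_mul, s.coord_res, t.coord_res])
    (fun x y W h hx hy => by
      rw [s.coord_g x y W h (hx.trans inf_le_left) (hy.trans inf_le_left),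
        t.coord_g x y W h (hx.trans inf_le_right) (hy.trans inf_le_right)]
      show _ = (Units.val (_ * _)) * _
      rw [Units.val_mul, mul_mul_mul_comm])

@[simp]
theorem coord_mul {M : LineSys X} (s : L.Sec V) (t : M.Sec V) (x : X) (W : X.Opens) (h : W ≤ V)
    (hx : W ≤ (L.tens M).U x) : (s.mul t).coord x W h hx =
      s.coord x W h (hx.trans inf_le_left) * t.coord x W h (hx.trans inf_le_right) := rfl

/-- The pullback of a section. -/
def pull (f : Y ⟶ X) {V' : Y.Opens} (e : V' ≤ f ⁻¹ᵁ V) (s : L.Sec V) : (L.pull f).Sec V' :=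
  mk' (fun y W h hy => f.appLE (V ⊓ L.U (f y)) W (fun _ hp => ⟨e (h hp), hy hp⟩)
      (s.coord (f y) _ inf_le_left inf_le_right))
    (fun y W W' i h hy => res_appLE f _ i _)
    (fun y z W h hy hz => by
      let T := V ⊓ L.U (f y) ⊓ L.U (f z)
      have hT : W ≤ f ⁻¹ᵁ T := fun _ hp => ⟨⟨e (h hp), hy hp⟩, hz hp⟩
      rw [LineSys.pull_g f L y z W T hy hz (inf_le_left.trans inf_le_right) inf_le_right hT]
      rw [← appLE_res f (U := T) (U' := V ⊓ L.U (f y)) inf_le_left hT,
        ← appLE_res f (U := T) (U' := V ⊓ L.U (f z))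
          (le_inf (inf_le_left.trans inf_le_left) inf_le_right) hT,
        s.coord_res, s.coord_res, s.coord_g (f y) (f z) T (inf_le_left.trans inf_le_left)
          (inf_le_left.trans inf_le_right) inf_le_right, map_mul]
      rfl)

/-- The coordinates of a pullback on any open of the base. -/
theorem coord_pull (f : Y ⟶ X) {V' : Y.Opens} (e : V' ≤ f ⁻¹ᵁ V) (s : L.Sec V) (y : Y)
    (W : Y.Opens) (h : W ≤ V') (hy : W ≤ (L.pull f).U y) (T : X.Opens) (hT : T ≤ V)
    (hTy : T ≤ L.U (f y)) (hW : W ≤ f ⁻¹ᵁ T) :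
    (s.pull f e).coord y W h hy = f.appLE T W hW (s.coord (f y) T hT hTy) := by
  rw [← s.coord_res (f y) (le_inf hT hTy) inf_le_left inf_le_right, appLE_res]
  rfl

/-- Transport of sections along an isomorphism, seen on the opens where both frames exist. -/
def IsImage {L' : LineSys X} (e : Iso L L') (s : L.Sec V) (s' : L'.Sec V) : Prop :=
  ∀ (x a : X) (W : X.Opens) (h : W ≤ V) (hx : W ≤ L.U x) (ha : W ≤ L'.U a),
    s.coord x W h hx = (e.h x a W hx ha : Γ(X, W)) * s'.coord a W h ha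

end Sec

/-- `1 : O → O`. -/
def trivSec (X : Scheme.{u}) (V : X.Opens) : (triv X).Sec V :=
  Sec.mk' (fun _ _ _ _ => 1) (fun _ _ _ i _ _ => map_one (res i))
    (fun _ _ _ _ _ _ => by simp [triv])

end LineSys

end Fermat.Agent.Jacobian
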