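/-
Sections of line systems: sheaf property, frames, pairing with the dual, transport along
isomorphisms.
-/
import Fermat.Agent.Jacobian.Line.Sections

set_option autoImplicit false
set_option linter.unusedVariables false

universe u

open CategoryTheory AlgebraicGeometry TopologicalSpace Opposite

noncomputable section

namespace Fermat.Agent.Jacobian

variable {X : Scheme.{u}}

/-- Functions are determined locally. -/
theorem fun_ext {ι : Type*} (V : ι → X.Opens) {U : X.Opens} (hV : ∀ i, V i ≤ U) (hU : U ≤ iSup V)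
    {a b : Γ(X, U)} (h : ∀ i, res (hV i) a = res (hV i) b) : a = b :=
  X.sheaf.eq_of_locally_eq' V U (fun i => homOfLE (hV i)) hU a b h

/-- Functions glue. -/
theorem exists_glue_fun {ι : Type*} (V : ι → X.Opens) {U : X.Opens} (hV : ∀ i, V i ≤ U)
    (hU : U ≤ iSup V) (a : ∀ i, Γ(X, V i))
    (h : ∀ i j, res (inf_le_left : V i ⊓ V j ≤ V i) (a i) = res inf_le_right (a j)) :
    ∃ b : Γ(X, U), ∀ i, res (hV i) b = a i := by
  obtain ⟨b, hb, -⟩ := X.sheaf.existsUnique_gluing' V U (fun i => homOfLE (hV i)) hU a h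
  exact ⟨b, hb⟩

theorem res_smul_eq {U V : X.Opens} (h : V ≤ U) (a b : Γ(X, U)) :
    res h (a • b) = res h a * res h b := map_mul (res h) a b

namespace LineSys

variable (L : LineSys X)

/-- A function given compatibly in every frame. -/
theorem exists_glue_frames (V : X.Opens)
    (a : ∀ (x : X) (W : X.Opens), W ≤ V → W ≤ L.U x → Γ(X, W))
    (h₁ : ∀ (x : X) (W W' : X.Opens) (i : W' ≤ W) (h : W ≤ V) (hx : W ≤ L.U x),
      res i (a x W h hx) = a x W' (i.trans h) (i.trans hx))
    (h₂ : ∀ (x y : X) (W : X.Opens) (h : W ≤ V) (hx : W ≤ L.U x) (hy : W ≤ L.U y),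
      a x W h hx = a y W h hy) :
    ∃ b : Γ(X, V), ∀ (x : X) (W : X.Opens) (h : W ≤ V) (hx : W ≤ L.U x),
      res h b = a x W h hx := by
  obtain ⟨b, hb⟩ := exists_glue_fun (fun x => V ⊓ L.U x) (fun x => inf_le_left) (L.le_iSup_U V)
    (fun x => a x _ inf_le_left inf_le_right) fun x y => by
      rw [h₁, h₁]
      exact h₂ ..
  refine ⟨b, fun x W h hx => ?_⟩
  have e := congrArg (res (le_inf h hx)) (hb x)
  rw [res_res, h₁] at e
  exact e

variable {L}

namespace Sec

variable {V V' V'' : X.Opens}

@[simp]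
theorem restrict_self (s : L.Sec V) (h : V ≤ V) : s.restrict h = s := rfl

@[simp]
theorem restrict_restrict (h : V' ≤ V) (h' : V'' ≤ V') (s : L.Sec V) :
    (s.restrict h).restrict h' = s.restrict (h'.trans h) := rfl

theorem restrict_add (h : V' ≤ V) (s t : L.Sec V) :
    (s + t).restrict h = s.restrict h + t.restrict h := rfl

theorem restrict_sub (h : V' ≤ V) (s t : L.Sec V) :
    (s - t).restrict h = s.restrict h - t.restrict h := rfl

@[simp]
theorem restrict_zero (h : V' ≤ V) : (0 : L.Sec V).restrict h = 0 := rfl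

theorem restrict_smul (h : V' ≤ V) (r : Γ(X, V)) (s : L.Sec V) :
    (r • s).restrict h = res h r • s.restrict h := by
  ext x W hW hx
  simp only [coord_restrict, coord_smul, res_res]

/-- Sections are determined locally. -/
theorem ext_of_cover {ι : Type*} (U : ι → X.Opens) (hU : ∀ i, U i ≤ V) (hcov : V ≤ iSup U)
    {s t : L.Sec V} (h : ∀ i, s.restrict (hU i) = t.restrict (hU i)) : s = t := by
  ext x W hW hx
  refine fun_ext (fun i => W ⊓ U i) (fun i => inf_le_left)
    (fun p hp => ?_) fun i => ?_
  · obtain ⟨i, hi⟩ := Opens.mem_iSup.mp (hcov (hW hp))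
    exact Opens.mem_iSup.mpr ⟨i, hp, hi⟩
  · rw [coord_res, coord_res]
    exact congrArg (fun u : L.Sec (U i) => u.coord x (W ⊓ U i) inf_le_right (inf_le_left.trans hx))
      (h i)

/-- Sections glue. -/
theorem existsUnique_glue {ι : Type*} (U : ι → X.Opens) (hU : ∀ i, U i ≤ V) (hcov : V ≤ iSup U)
    (s : ∀ i, L.Sec (U i))
    (hs : ∀ i j, (s i).restrict (inf_le_left : U i ⊓ U j ≤ U i) = (s j).restrict inf_le_right) :
    ∃! t : L.Sec V, ∀ i, t.restrict (hU i) = s i := by
  have hex : ∀ (x : X) (W : X.Opens) (hW : W ≤ V) (hx : W ≤ L.U x), ∃ b : Γ(X, W), ∀ i,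
      res (inf_le_left : W ⊓ U i ≤ W) b =
        (s i).coord x _ inf_le_right (inf_le_left.trans hx) := fun x W hW hx => by
    refine exists_glue_fun _ _ (fun p hp => ?_) _ fun i j => ?_
    · obtain ⟨i, hi⟩ := Opens.mem_iSup.mp (hcov (hW hp))
      exact Opens.mem_iSup.mpr ⟨i, hp, hi⟩
    · rw [coord_res, coord_res]
      exact congrArg (fun u : L.Sec (U i ⊓ U j) => u.coord x (W ⊓ U i ⊓ (W ⊓ U j))
        (le_inf (inf_le_left.trans inf_le_right) (inf_le_right.trans inf_le_right))
        (inf_le_left.trans (inf_le_left.trans hx))) (hs i j)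
  choose b hb using hex
  have hcovW : ∀ W : X.Opens, W ≤ V → W ≤ iSup fun i => W ⊓ U i := fun W hW p hp => by
    obtain ⟨i, hi⟩ := Opens.mem_iSup.mp (hcov (hW hp))
    exact Opens.mem_iSup.mpr ⟨i, hp, hi⟩
  refine ⟨mk' b (fun x W W' i hW hx => ?_) (fun x y W hW hx hy => ?_), fun i => ?_, fun t ht => ?_⟩
  · refine fun_ext _ (fun _ => inf_le_left) (hcovW W' (i.trans hW)) fun j => ?_
    rw [hb, res_res]
    have e := congrArg (res (inf_le_inf_right (U j) i)) (hb x W hW hx j)
    rw [res_res, coord_res] at e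
    exact e
  · refine fun_ext _ (fun _ => inf_le_left) (hcovW W hW) fun j => ?_
    rw [map_mul, hb, hb, (s j).coord_g x y _ inf_le_right (inf_le_left.trans hx)
      (inf_le_left.trans hy)]
    exact congrArg (· * _) (congrArg Units.val (L.g_res x y inf_le_left hx hy)).symm
  · ext x W hW hx
    rw [coord_restrict, coord_mk']
    have e := congrArg (res (le_inf le_rfl hW : W ≤ W ⊓ U i)) (hb x W (hW.trans (hU i)) hx i)
    rw [res_res, coord_res, res_self] at e
    exact e
  · ext x W hW hx
    refine fun_ext _ (fun _ => inf_le_left) (hcovW W hW) fun j => ?_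
    rw [coord_res, coord_mk', hb, ← ht j]
    rfl

/-- The frame at `x` trivialises the sections on opens where it lives. -/
def frame (x : X) {W : X.Opens} (hx : W ≤ L.U x) : L.Sec W ≃ₗ[Γ(X, W)] Γ(X, W) where
  toFun s := s.coord x W le_rfl hx
  map_add' s t := rfl
  map_smul' r s := by simp [res_self]
  invFun r := mk' (fun y W' h hy => res h r * (L.g y x W' hy (h.trans hx) : Γ(X, W')))
    (fun y W' W'' i h hy => by
      rw [map_mul, res_res]
      exact congrArg (_ * ·) (congrArg Units.val (L.g_res y x i hy (h.trans hx))))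
    (fun y z W' h hy hz => by
      rw [mul_left_comm, ← Units.val_mul, L.g_mul])
  left_inv s := by
    ext y W' h hy
    rw [coord_mk', coord_res, mul_comm, ← coord_g]
  right_inv r := by simp [res_self, L.g_self]

theorem frame_apply (x : X) {W : X.Opens} (hx : W ≤ L.U x) (s : L.Sec W) :
    frame x hx s = s.coord x W le_rfl hx := rfl

theorem frame_restrict (x : X) {W W' : X.Opens} (hx : W ≤ L.U x) (h : W' ≤ W) (s : L.Sec W) :
    frame x (h.trans hx) (s.restrict h) = res h (frame x hx s) :=
  (s.coord_res x h le_rfl hx).symm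

theorem pair_aux (s : L.Sec V) (t : L.dual.Sec V) :
    ∃ b : Γ(X, V), ∀ (x : X) (W : X.Opens) (h : W ≤ V) (hx : W ≤ L.U x),
      res h b = s.coord x W h hx * t.coord x W h hx := by
  refine L.exists_glue_frames V _ (fun x W W' i h hx => ?_) fun x y W h hx hy => ?_
  · rw [map_mul, s.coord_res, t.coord_res]
  · rw [s.coord_g x y W h hx hy, t.coord_g x y W h hx hy]
    show _ * (((L.g x y W hx hy)⁻¹ : Γ(X, W)ˣ).1 * _) = _
    rw [mul_mul_mul_comm, Units.mul_inv, one_mul]

/-- The pairing of a section with a section of the dual. -/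
def pair (s : L.Sec V) (t : L.dual.Sec V) : Γ(X, V) := (pair_aux s t).choose

theorem res_pair (s : L.Sec V) (t : L.dual.Sec V) (x : X) (W : X.Opens) (h : W ≤ V)
    (hx : W ≤ L.U x) : res h (s.pair t) = s.coord x W h hx * t.coord x W h hx :=
  (pair_aux s t).choose_spec x W h hx

/-- Functions on `V` are determined in the frames. -/
theorem fun_ext_frames {a b : Γ(X, V)}
    (h : ∀ (x : X) (W : X.Opens) (h : W ≤ V), W ≤ L.U x → res h a = res h b) : a = b :=
  fun_ext (fun x => V ⊓ L.U x) (fun x => inf_le_left) (L.le_iSup_U V)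
    fun x => h x _ inf_le_left inf_le_right

/-- The pairing as a bilinear map. -/
def pairₗ : L.Sec V →ₗ[Γ(X, V)] L.dual.Sec V →ₗ[Γ(X, V)] Γ(X, V) :=
  LinearMap.mk₂ Γ(X, V) pair
    (fun s s' t => fun_ext_frames (L := L) fun x W h hx => by
      rw [map_add, res_pair _ _ x W h hx, res_pair _ _ x W h hx, res_pair _ _ x W h hx, coord_add,
        add_mul])
    (fun r s t => fun_ext_frames (L := L) fun x W h hx => by
      rw [res_smul_eq, res_pair _ _ x W h hx, res_pair _ _ x W h hx, coord_smul, mul_assoc])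
    (fun s t t' => fun_ext_frames (L := L) fun x W h hx => by
      rw [map_add, res_pair _ _ x W h hx, res_pair _ _ x W h hx, res_pair _ _ x W h hx, coord_add,
        mul_add])
    (fun r s t => fun_ext_frames (L := L) fun x W h hx => by
      rw [res_smul_eq, res_pair _ _ x W h hx, res_pair _ _ x W h hx, coord_smul, mul_left_comm])

@[simp]
theorem pairₗ_apply (s : L.Sec V) (t : L.dual.Sec V) : pairₗ s t = s.pair t := rfl

theorem pair_smul_eq (s s' : L.Sec V) (t : L.dual.Sec V) : s.pair t • s' = s'.pair t • s := by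
  ext x W h hx
  rw [coord_smul, coord_smul, res_pair _ _ x W h hx, res_pair _ _ x W h hx]
  ring

theorem pair_smul_eq' (s : L.Sec V) (t t' : L.dual.Sec V) : s.pair t • t' = s.pair t' • t := by
  ext x W h hx
  have e₁ := res_pair s t x W h hx
  have e₂ := res_pair s t' x W h hx
  rw [coord_smul, coord_smul]
  calc res h (s.pair t) * t'.coord x W h hx
      = s.coord x W h hx * t.coord x W h hx * t'.coord x W h hx := congrArg (· * _) e₁
    _ = s.coord x W h hx * t'.coord x W h hx * t.coord x W h hx := mul_right_comm _ _ _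
    _ = res h (s.pair t') * t.coord x W h hx := (congrArg (· * _) e₂).symm

theorem pair_restrict (h : V' ≤ V) (s : L.Sec V) (t : L.dual.Sec V) :
    (s.restrict h).pair (t.restrict h) = res h (s.pair t) :=
  fun_ext_frames (L := L) fun x W hW hx => by
    rw [res_res, res_pair _ _ x W hW hx, res_pair _ _ x W (hW.trans h) hx]
    rfl

end Sec

namespace Iso

variable {L' : LineSys X} (e : Iso L L') {V : X.Opens}

theorem exists_isImage (s : L.Sec V) : ∃ s' : L'.Sec V, Sec.IsImage e s s' := by
  have hex : ∀ (a : X) (W : X.Opens) (hW : W ≤ V) (ha : W ≤ L'.U a), ∃ b : Γ(X, W),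
      ∀ (x : X) (W' : X.Opens) (h : W' ≤ W) (hx : W' ≤ L.U x), res h b =
        ((e.h x a W' hx (h.trans ha))⁻¹ : Γ(X, W')ˣ).1 * s.coord x W' (h.trans hW) hx := by
    intro a W hW ha
    refine L.exists_glue_frames W _ (fun x W' W'' i h hx => ?_) fun x y W' h hx hy => ?_
    · rw [map_mul, s.coord_res]
      exact congrArg (· * _) (congrArg Units.inv (e.h_res x a i hx (h.trans ha)))
    · rw [s.coord_g x y W' (h.trans hW) hx hy, ← mul_assoc, ← Units.val_mul,
        ← e.g_h x y a W' hx hy (h.trans ha), mul_inv_rev, mul_assoc, inv_mul_cancel, mul_one]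
  choose b hb using hex
  refine ⟨Sec.mk' b (fun a W W' i hW ha => ?_) fun a c W hW ha hc => ?_, fun x a W hW hx ha => ?_⟩
  · refine Sec.fun_ext_frames (L := L) fun x W'' h hx => ?_
    rw [res_res, hb a W hW ha x W'' (h.trans i) hx, hb a W' (i.trans hW) (i.trans ha) x W'' h hx]
  · refine Sec.fun_ext_frames (L := L) fun x W' h hx => ?_
    rw [map_mul, hb a W hW ha x W' h hx, hb c W hW hc x W' h hx, ← mul_assoc]
    refine congrArg (· * _) ?_
    rw [show res h (L'.g a c W ha hc : Γ(X, W)) = (L'.g a c W' (h.trans ha) (h.trans hc)).1 from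
      congrArg Units.val (L'.g_res a c h ha hc), ← Units.val_mul]
    refine congrArg Units.val ?_
    rw [← e.h_g x a c W' hx (h.trans ha) (h.trans hc), mul_inv_rev, ← mul_assoc, mul_inv_cancel,
      one_mul]
  · rw [Sec.coord_mk']
    have h1 := hb a W hW ha x W le_rfl hx
    rw [res_self] at h1
    rw [h1, ← mul_assoc, Units.mul_inv, one_mul]

theorem isImage_unique {s : L.Sec V} {t t' : L'.Sec V} (h : Sec.IsImage e s t)
    (h' : Sec.IsImage e s t') : t = t' := by
  ext a W hW ha
  refine Sec.fun_ext_frames (L := L) fun x W' h'' hx => ?_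
  rw [t.coord_res, t'.coord_res]
  exact (Units.isUnit (e.h x a W' hx (h''.trans ha))).mul_left_cancel
    ((h x a W' _ hx _).symm.trans (h' x a W' _ hx _))

theorem isImage_symm {s : L.Sec V} {t : L'.Sec V} (h : Sec.IsImage e s t) :
    Sec.IsImage e.symm t s := fun a x W hW ha hx => by
  rw [h x a W hW hx ha]
  show _ = ((e.h x a W hx ha)⁻¹ : Γ(X, W)ˣ).1 * _
  rw [← mul_assoc, Units.inv_mul, one_mul]

/-- Transport of sections along an isomorphism. -/
def secMap (V : X.Opens) : L.Sec V ≃ₗ[Γ(X, V)] L'.Sec V where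
  toFun s := (e.exists_isImage s).choose
  invFun t := (e.symm.exists_isImage t).choose
  map_add' s t := by
    refine e.isImage_unique (e.exists_isImage (s + t)).choose_spec fun x a W h hx ha => ?_
    rw [Sec.coord_add, Sec.coord_add, (e.exists_isImage s).choose_spec x a W h hx ha,
      (e.exists_isImage t).choose_spec x a W h hx ha, mul_add]
  map_smul' r s := by
    refine e.isImage_unique (e.exists_isImage (r • s)).choose_spec fun x a W h hx ha => ?_
    rw [RingHom.id_apply, Sec.coord_smul, Sec.coord_smul,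
      (e.exists_isImage s).choose_spec x a W h hx ha, mul_left_comm]
  left_inv s := e.symm.isImage_unique (e.symm.exists_isImage _).choose_spec
    (e.isImage_symm (e.exists_isImage s).choose_spec)
  right_inv t := e.isImage_unique (e.exists_isImage _).choose_spec fun x a W h hx ha => by
    rw [(e.symm.exists_isImage t).choose_spec a x W h ha hx]
    show _ = _ * (((e.h x a W hx ha)⁻¹ : Γ(X, W)ˣ).1 * _)
    rw [← mul_assoc, Units.mul_inv, one_mul]

theorem isImage_secMap (s : L.Sec V) : Sec.IsImage e s (e.secMap V s) :=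
  (e.exists_isImage s).choose_spec

theorem secMap_eq_of_isImage {s : L.Sec V} {t : L'.Sec V} (h : Sec.IsImage e s t) :
    e.secMap V s = t :=
  e.isImage_unique (e.isImage_secMap s) h

theorem secMap_restrict {V' : X.Opens} (h : V' ≤ V) (s : L.Sec V) :
    e.secMap V' (s.restrict h) = (e.secMap V s).restrict h :=
  e.secMap_eq_of_isImage fun x a W hW hx ha => e.isImage_secMap s x a W (hW.trans h) hx ha

end Iso

theorem trivFun_aux {V : X.Opens} (s : (triv X).Sec V) :
    ∃ b : Γ(X, V), ∀ (x : X) (W : X.Opens) (h : W ≤ V) (hx : W ≤ (triv X).U x),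
      res h b = s.coord x W h hx :=
  (triv X).exists_glue_frames V _ (fun x W W' i h hx => s.coord_res x i h hx)
    fun x y W h hx hy => (s.coord_g x y W h hx hy).trans (one_mul _)

/-- Sections of the trivial system are functions. -/
def trivEquiv (V : X.Opens) : (triv X).Sec V ≃ₗ[Γ(X, V)] Γ(X, V) where
  toFun s := (trivFun_aux s).choose
  invFun r := r • trivSec X V
  map_add' s t := Sec.fun_ext_frames (L := triv X) fun x W h hx => by
    rw [map_add, (trivFun_aux _).choose_spec x W h hx, (trivFun_aux _).choose_spec x W h hx,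
      (trivFun_aux _).choose_spec x W h hx, Sec.coord_add]
  map_smul' r s := Sec.fun_ext_frames (L := triv X) fun x W h hx => by
    rw [RingHom.id_apply, res_smul_eq, (trivFun_aux _).choose_spec x W h hx,
      (trivFun_aux _).choose_spec x W h hx, Sec.coord_smul]
  left_inv s := by
    ext x W h hx
    rw [Sec.coord_smul, (trivFun_aux s).choose_spec x W h hx]
    exact mul_one _
  right_inv r := Sec.fun_ext_frames (L := triv X) fun x W h hx => by
    rw [(trivFun_aux _).choose_spec x W h hx, Sec.coord_smul]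
    exact mul_one _

theorem res_trivEquiv {V : X.Opens} (s : (triv X).Sec V) (x : X) (W : X.Opens) (h : W ≤ V)
    (hx : W ≤ (triv X).U x) : res h (trivEquiv V s) = s.coord x W h hx :=
  (trivFun_aux s).choose_spec x W h hx

theorem trivEquiv_trivSec (V : X.Opens) : trivEquiv V (trivSec X V) = 1 :=
  Sec.fun_ext_frames (L := triv X) fun x W h hx => by
    rw [map_one, res_trivEquiv _ x W h hx]
    rfl

theorem trivEquiv_restrict {V V' : X.Opens} (h : V' ≤ V) (s : (triv X).Sec V) :
    trivEquiv V' (s.restrict h) = res h (trivEquiv V s) :=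
  Sec.fun_ext_frames (L := triv X) fun x W hW hx => by
    rw [res_trivEquiv _ x W hW hx, res_res, res_trivEquiv _ x W (hW.trans h) hx]
    rfl

end LineSys

end Fermat.Agent.Jacobian
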