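/-
Dual bases: base change and invertibility criteria for modules.
-/
import Mathlib

set_option autoImplicit false

universe u

noncomputable section

open TensorProduct

namespace Fermat.Agent.Jacobian

/-- A module with a finite dual basis which maps to one of the target is base changed. -/
theorem isBaseChange_of_dualBasis {R S M N : Type*} [CommRing R] [CommRing S] [Algebra R S]
    [AddCommGroup M] [Module R M] [AddCommGroup N] [Module R N] [Module S N] [IsScalarTower R S N]
    (φ : M →ₗ[R] N) {ι : Type*} [Fintype ι] (m : ι → M) (l : ι → M →ₗ[R] R)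
    (l' : ι → N →ₗ[S] S) (hl : ∀ a, ∑ i, l i a • m i = a)
    (hl' : ∀ z, ∑ i, l' i z • φ (m i) = z)
    (hcomp : ∀ i a, l' i (φ a) = algebraMap R S (l i a)) : IsBaseChange S φ := by
  refine IsBaseChange.of_equiv
    (LinearEquiv.ofBijective (φ.liftBaseChange S) ⟨fun a b hab => ?_, fun z => ?_⟩) fun x => ?_
  · let ψ : N →ₗ[S] S ⊗[R] M := ∑ i, (l' i).smulRight ((1 : S) ⊗ₜ[R] m i)
    have key : ∀ c, ψ (φ.liftBaseChange S c) = c := fun c => by
      induction c using TensorProduct.induction_on with
      | zero => simp
      | tmul s a =>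
        rw [LinearMap.liftBaseChange_tmul, map_smul]
        simp only [ψ, LinearMap.sum_apply, LinearMap.smulRight_apply, hcomp, algebraMap_smul,
          ← TensorProduct.tmul_smul]
        rw [← TensorProduct.tmul_sum, hl, TensorProduct.smul_tmul', smul_eq_mul, mul_one]
      | add x y hx hy => rw [map_add, map_add, hx, hy]
    rw [← key a, ← key b, hab]
  · exact ⟨∑ i, l' i z ⊗ₜ[R] m i, by simp [map_sum, hl']⟩
  · simp

/-- A module is invertible if it has a symmetric pairing reaching `1`. -/
theorem invertible_of_pairing {R M N : Type*} [CommRing R] [AddCommGroup M] [Module R M]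
    [AddCommGroup N] [Module R N] (μ : M →ₗ[R] N →ₗ[R] R) {ι : Type*} [Fintype ι]
    (m : ι → M) (n : ι → N) (h1 : ∑ i, μ (m i) (n i) = 1)
    (hM : ∀ a a' b, μ a b • a' = μ a' b • a) (hN : ∀ a b b', μ a b • b' = μ a b' • b) :
    Module.Invertible R M := by
  refine Module.Invertible.left (N := N)
    (LinearEquiv.ofBijective (TensorProduct.lift μ) ⟨fun x y hxy => ?_, fun r => ?_⟩)
  · let e : M ⊗[R] N := ∑ i, m i ⊗ₜ[R] n i
    have key : ∀ z, TensorProduct.lift μ z • e = z := fun z => by
      induction z using TensorProduct.induction_on with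
      | zero => simp
      | tmul a b =>
        rw [TensorProduct.lift.tmul, Finset.smul_sum]
        calc ∑ i, μ a b • m i ⊗ₜ[R] n i = ∑ i, a ⊗ₜ[R] (μ (m i) (n i) • b) :=
              Finset.sum_congr rfl fun i _ => by
                rw [TensorProduct.smul_tmul', hM a (m i) b, TensorProduct.smul_tmul,
                  hN (m i) b (n i)]
          _ = a ⊗ₜ[R] b := by
              rw [← TensorProduct.tmul_sum, ← Finset.sum_smul, h1, one_smul]
      | add x y hx hy => rw [map_add, add_smul, hx, hy]
    rw [← key x, ← key y, hxy]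
  · exact ⟨r • ∑ i, m i ⊗ₜ[R] n i, by simp [map_sum, h1]⟩

end Fermat.Agent.Jacobian
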