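/-
Sections of a line system on an affine open: extension from basic opens, a dual basis, invertibility,
localisation and restriction as base change.
-/
import Fermat.Agent.Jacobian.Line.AffineSheaf
import Fermat.Agent.Jacobian.Line.AffineAlgebra

set_option autoImplicit false
set_option linter.unusedVariables false

universe u

open CategoryTheory AlgebraicGeometry TopologicalSpace Opposite

noncomputable section

namespace Fermat.Agent.Jacobian

namespace LineSys

variable {X : Scheme.{u}} {L : LineSys X}

namespace Sec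

variable {V : X.Opens}

theorem exists_extend_small {W : X.Opens} (hW : IsAffineOpen W) (x : X) (hx : W ≤ L.U x)
    (h : Γ(X, W)) (t : L.Sec (X.basicOpen h)) :
    ∃ (n : ℕ) (s : L.Sec W), s.restrict (X.basicOpen_le h) =
      res (X.basicOpen_le h) (h ^ n) • t := by
  have := hW.isLocalization_basicOpen h
  obtain ⟨n, a, ha⟩ := IsLocalization.Away.surj (S := Γ(X, X.basicOpen h)) h
    (frame x ((X.basicOpen_le h).trans hx) t)
  refine ⟨n, (frame x hx).symm a, (frame x ((X.basicOpen_le h).trans hx)).injective ?_⟩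
  rw [frame_restrict x hx (X.basicOpen_le h), LinearEquiv.apply_symm_apply, map_smul]
  show res (X.basicOpen_le h) a = res (X.basicOpen_le h) (h ^ n) * _
  rw [map_pow, mul_comm]
  exact ha.symm

theorem exists_kill_small {W : X.Opens} (hW : IsAffineOpen W) (x : X) (hx : W ≤ L.U x)
    (h : Γ(X, W)) (d : L.Sec W) (hd : d.restrict (X.basicOpen_le h) = 0) :
    ∃ m : ℕ, h ^ m • d = 0 := by
  have := hW.isLocalization_basicOpen h
  have h0 : algebraMap Γ(X, W) Γ(X, X.basicOpen h) (frame x hx d) =
      algebraMap Γ(X, W) Γ(X, X.basicOpen h) 0 := by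
    rw [map_zero]
    show res (X.basicOpen_le h) _ = 0
    rw [← frame_restrict, hd, map_zero]
  obtain ⟨⟨_, m, rfl⟩, hm⟩ := (IsLocalization.eq_iff_exists (Submonoid.powers h) _).mp h0
  refine ⟨m, (frame x hx).injective ?_⟩
  rw [map_smul, map_zero]
  exact hm.trans (mul_zero _)

/-- Sections extend from basic opens of an affine open, up to powers. -/
theorem exists_extend {W : X.Opens} (hW : IsAffineOpen W) (h : Γ(X, W))
    (t : L.Sec (X.basicOpen h)) :
    ∃ (n : ℕ) (s : L.Sec W), s.restrict (X.basicOpen_le h) =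
      res (X.basicOpen_le h) (h ^ n) • t := by
  classical
  have hb : ∀ p : W, ∃ f : Γ(X, W), X.basicOpen f ≤ L.U p.1 ∧ p.1 ∈ X.basicOpen f := fun p =>
    hW.exists_basicOpen_le ⟨p.1, L.mem p.1⟩ p.2
  choose f hf hpf using hb
  obtain ⟨P, hP⟩ := hW.isCompact.elim_finite_subcover (fun p : W => (X.basicOpen (f p) : Set X))
    (fun p => (X.basicOpen (f p)).isOpen) fun p hp => Set.mem_iUnion.mpr ⟨⟨p, hp⟩, hpf ⟨p, hp⟩⟩
  let U : P → X.Opens := fun p => X.basicOpen (f p.1)
  have hU : ∀ p, U p ≤ W := fun p => X.basicOpen_le _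
  have hcov : W ≤ iSup U := fun q hq => by
    obtain ⟨p, hp, hq'⟩ := Set.mem_iUnion₂.mp (hP hq)
    exact Opens.mem_iSup.mpr ⟨⟨p, hp⟩, hq'⟩
  let g : ∀ p, Γ(X, U p) := fun p => res (hU p) h
  have hg : ∀ p, X.basicOpen (g p) ≤ X.basicOpen h := fun p =>
    (X.basicOpen_res h (homOfLE (hU p)).op).le.trans inf_le_right
  -- local extensions with a common exponent
  have hloc : ∀ p, ∃ (n : ℕ) (s : L.Sec (U p)), s.restrict (X.basicOpen_le (g p)) =
      res (X.basicOpen_le (g p)) (g p ^ n) • t.restrict (hg p) := fun p =>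
    exists_extend_small (hW.basicOpen _) p.1.1 (hf p.1) (g p) _
  choose n s hs using hloc
  let N := Finset.univ.sup n
  let s' : ∀ p, L.Sec (U p) := fun p => g p ^ (N - n p) • s p
  have hs' : ∀ p, (s' p).restrict (X.basicOpen_le (g p)) =
      res (X.basicOpen_le (g p)) (g p ^ N) • t.restrict (hg p) := fun p => by
    rw [restrict_smul, hs, smul_smul, ← map_mul, ← pow_add,
      Nat.sub_add_cancel (Finset.le_sup (Finset.mem_univ p))]
  -- the differences on the overlaps
  have hkill : ∀ p q : P, ∃ m : ℕ, res (inf_le_left.trans (hU p) : U p ⊓ U q ≤ W) (h ^ m) •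
      ((s' p).restrict inf_le_left - (s' q).restrict inf_le_right : L.Sec (U p ⊓ U q)) = 0 := by
    intro p q
    have hA : IsAffineOpen (U p ⊓ U q) := by
      rw [show U p ⊓ U q = X.basicOpen (f p.1 * f q.1) from (X.basicOpen_mul _ _).symm]
      exact hW.basicOpen _
    suffices hz : ((s' p).restrict (inf_le_left : U p ⊓ U q ≤ U p) -
        (s' q).restrict inf_le_right).restrict
          (X.basicOpen_le (res (inf_le_left.trans (hU p) : U p ⊓ U q ≤ W) h)) = 0 by
      obtain ⟨m, hm⟩ := exists_kill_small hA p.1.1 (inf_le_left.trans (hf p.1)) _ _ hz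
      exact ⟨m, by simpa only [map_pow] using hm⟩
    set D := X.basicOpen (res (inf_le_left.trans (hU p) : U p ⊓ U q ≤ W) h)
    have hD : D = U p ⊓ U q ⊓ X.basicOpen h := X.basicOpen_res h _
    have hp : D ≤ X.basicOpen (g p) := by
      rw [show X.basicOpen (g p) = U p ⊓ X.basicOpen h from X.basicOpen_res h _, hD]
      exact inf_le_inf_right _ inf_le_left
    have hq : D ≤ X.basicOpen (g q) := by
      rw [show X.basicOpen (g q) = U q ⊓ X.basicOpen h from X.basicOpen_res h _, hD]
      exact inf_le_inf_right _ inf_le_right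
    have e1 := congrArg (fun u => u.restrict hp) (hs' p)
    have e2 := congrArg (fun u => u.restrict hq) (hs' q)
    simp only [restrict_restrict, restrict_smul, map_pow, res_res, g] at e1 e2
    rw [restrict_sub, restrict_restrict, restrict_restrict, sub_eq_zero]
    exact e1.trans e2.symm
  choose m hm using hkill
  let M := Finset.univ.sup fun pq : P × P => m pq.1 pq.2
  obtain ⟨σ, hσ, -⟩ := existsUnique_glue U hU hcov (fun p => res (hU p) (h ^ M) • s' p) fun p q => by
    simp only [restrict_smul, res_res]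
    have hle : m p q ≤ M :=
      Finset.le_sup (f := fun pq : P × P => m pq.1 pq.2) (Finset.mem_univ (p, q))
    rw [← sub_eq_zero, ← smul_sub, ← Nat.sub_add_cancel hle, pow_add, map_mul, mul_smul, hm,
      smul_zero]
  refine ⟨M + N, σ, ext_of_cover (fun p => X.basicOpen (g p)) hg (fun q hq => ?_) fun p => ?_⟩
  · obtain ⟨p, hp⟩ := Opens.mem_iSup.mp (hcov (X.basicOpen_le h hq))
    refine Opens.mem_iSup.mpr ⟨p, ?_⟩
    rw [show X.basicOpen (g p) = U p ⊓ X.basicOpen h from X.basicOpen_res h _]
    exact ⟨hp, hq⟩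
  · have e := congrArg (fun u => u.restrict (X.basicOpen_le (g p))) (hσ p)
    simp only [restrict_restrict, restrict_smul, hs', res_res] at e
    rw [restrict_restrict, e, restrict_smul, smul_smul, res_res, pow_add, map_mul]
    simp only [g, map_pow, res_res]

theorem exists_pair_eq_pow {W : X.Opens} (hW : IsAffineOpen W) (p : X) (hp : p ∈ W) :
    ∃ (f : Γ(X, W)) (N : ℕ) (s : L.Sec W) (t : L.dual.Sec W),
      p ∈ X.basicOpen f ∧ s.pair t = f ^ N := by
  obtain ⟨f, hf, hpf⟩ := hW.exists_basicOpen_le ⟨p, L.mem p⟩ hp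
  have hf' : X.basicOpen f ≤ L.dual.U p := hf
  obtain ⟨n, s, hs⟩ := exists_extend hW f ((frame (L := L) p hf).symm 1)
  obtain ⟨m, t, ht⟩ := exists_extend hW f ((frame (L := L.dual) p hf').symm 1)
  have h1 : res (X.basicOpen_le f) (s.pair t) = res (X.basicOpen_le f) (f ^ (n + m)) := by
    rw [← pair_restrict, hs, ht, ← pairₗ_apply, map_smul, map_smul, LinearMap.smul_apply,
      pairₗ_apply]
    have h2 : ((frame (L := L) p hf).symm 1).pair ((frame (L := L.dual) p hf').symm 1) = 1 := by
      have e := res_pair ((frame (L := L) p hf).symm 1) ((frame (L := L.dual) p hf').symm 1) p _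
        le_rfl hf
      rw [res_self] at e
      refine e.trans ?_
      have a1 := (frame (L := L) p hf).apply_symm_apply 1
      have a2 := (frame (L := L.dual) p hf').apply_symm_apply 1
      rw [frame_apply] at a1 a2
      exact (congrArg₂ (· * ·) a1 a2).trans (one_mul 1)
    rw [h2, smul_eq_mul, smul_eq_mul, mul_one, ← map_mul, ← pow_add, add_comm]
  have := hW.isLocalization_basicOpen f
  obtain ⟨⟨_, k, rfl⟩, hk⟩ := (IsLocalization.eq_iff_exists (Submonoid.powers f) _).mp h1
  refine ⟨f, k + (n + m), f ^ k • s, t, hpf, ?_⟩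
  rw [← pairₗ_apply, map_smul, LinearMap.smul_apply, pairₗ_apply, smul_eq_mul, pow_add]
  exact hk

/-- On an affine open the pairing with the dual reaches `1`. -/
theorem exists_dual_basis (L : LineSys X) {W : X.Opens} (hW : IsAffineOpen W) :
    ∃ (n : ℕ) (s : Fin n → L.Sec W) (t : Fin n → L.dual.Sec W),
      ∑ i, (s i).pair (t i) = 1 := by
  let P : Set Γ(X, W) := {r | ∃ (s : L.Sec W) (t : L.dual.Sec W), s.pair t = r}
  let Q : Set Γ(X, W) := {f | ∃ N : ℕ, f ^ N ∈ P}
  have hspan : Ideal.span Q = ⊤ := by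
    rw [← hW.self_le_iSup_basicOpen_iff]
    intro p hp
    obtain ⟨f, N, s, t, hpf, e⟩ := exists_pair_eq_pow (L := L) hW p hp
    exact Opens.mem_iSup.mpr ⟨⟨f, N, s, t, e⟩, hpf⟩
  have htop : (1 : Γ(X, W)) ∈ Ideal.span P := by
    rw [← Ideal.eq_top_iff_one, ← Ideal.radical_eq_top, eq_top_iff, ← hspan, Ideal.span_le]
    rintro f ⟨N, hN⟩
    exact ⟨N, Ideal.subset_span hN⟩
  obtain ⟨n, c, r, e⟩ := Submodule.mem_span_set'.mp htop
  choose s t hst using fun i => (r i).2
  refine ⟨n, fun i => c i • s i, t, e ▸ Finset.sum_congr rfl fun i _ => ?_⟩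
  rw [← pairₗ_apply, map_smul, LinearMap.smul_apply, pairₗ_apply, hst]

theorem sum_pair_smul {W : X.Opens} {n : ℕ} {s : Fin n → L.Sec W} {t : Fin n → L.dual.Sec W}
    (h1 : ∑ i, (s i).pair (t i) = 1) (a : L.Sec W) : ∑ i, a.pair (t i) • s i = a := by
  simp only [fun i => pair_smul_eq a (s i) (t i), ← Finset.sum_smul, h1, one_smul]

/-- Sections over an affine open form an invertible module. -/
theorem invertible {W : X.Opens} (hW : IsAffineOpen W) :
    Module.Invertible Γ(X, W) (L.Sec W) := by
  obtain ⟨n, s, t, h1⟩ := exists_dual_basis L hW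
  exact invertible_of_pairing pairₗ s t h1 pair_smul_eq pair_smul_eq'

theorem finite {W : X.Opens} (hW : IsAffineOpen W) : Module.Finite Γ(X, W) (L.Sec W) :=
  haveI := invertible (L := L) hW
  inferInstance

theorem projective {W : X.Opens} (hW : IsAffineOpen W) : Module.Projective Γ(X, W) (L.Sec W) :=
  haveI := invertible (L := L) hW
  inferInstance

/-- The module structure on the sections over a smaller open. -/
@[reducible] def resModule (L : LineSys X) {V V' : X.Opens} (h : V' ≤ V) :
    Module Γ(X, V) (L.Sec V') :=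
  Module.compHom (L.Sec V') (res h)

/-- Restriction as a linear map. -/
def restrictₗ (L : LineSys X) {V V' : X.Opens} (h : V' ≤ V) :
    letI := resModule L h
    L.Sec V →ₗ[Γ(X, V)] L.Sec V' :=
  letI := resModule L h
  { toFun := fun s => s.restrict h
    map_add' := restrict_add h
    map_smul' := restrict_smul h }

/-- Restriction from an affine open is a base change. -/
theorem isBaseChange_restrict {W W' : X.Opens} (hW : IsAffineOpen W) (h : W' ≤ W) :
    letI := (res h).toAlgebra
    letI := resModule L h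
    haveI : IsScalarTower Γ(X, W) Γ(X, W') (L.Sec W') :=
      IsScalarTower.of_algebraMap_smul fun _ _ => rfl
    IsBaseChange Γ(X, W') (restrictₗ L h) := by
  let := (res h).toAlgebra
  let := resModule L h
  have : IsScalarTower Γ(X, W) Γ(X, W') (L.Sec W') :=
    IsScalarTower.of_algebraMap_smul fun _ _ => rfl
  obtain ⟨n, s, t, h1⟩ := exists_dual_basis L hW
  have h1' : ∑ i, ((s i).restrict h).pair ((t i).restrict h) = 1 := by
    simp only [pair_restrict, ← map_sum, h1, map_one]
  exact isBaseChange_of_dualBasis (restrictₗ L h) s (fun i => pairₗ.flip (t i))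
    (fun i => pairₗ.flip ((t i).restrict h)) (sum_pair_smul h1) (sum_pair_smul h1')
    fun i a => pair_restrict h a (t i)

/-- Restriction to a basic open of an affine open is a localisation. -/
theorem isLocalizedModule_restrict {W : X.Opens} (hW : IsAffineOpen W) (h : Γ(X, W)) :
    letI := resModule L (X.basicOpen_le h)
    IsLocalizedModule (Submonoid.powers h) (restrictₗ L (X.basicOpen_le h)) := by
  let := resModule L (X.basicOpen_le h)
  have := hW.isLocalization_basicOpen h
  have : IsScalarTower Γ(X, W) Γ(X, X.basicOpen h) (L.Sec (X.basicOpen h)) :=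
    IsScalarTower.of_algebraMap_smul fun _ _ => rfl
  exact (isLocalizedModule_iff_isBaseChange (Submonoid.powers h) Γ(X, X.basicOpen h) _).mpr
    (isBaseChange_restrict hW (X.basicOpen_le h))

/-- A section vanishing on a basic open is killed by a power. -/
theorem exists_pow_smul_eq_zero {W : X.Opens} (hW : IsAffineOpen W) (h : Γ(X, W)) (s : L.Sec W)
    (hs : s.restrict (X.basicOpen_le h) = 0) : ∃ n : ℕ, h ^ n • s = 0 := by
  let := resModule L (X.basicOpen_le h)
  have := isLocalizedModule_restrict (L := L) hW h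
  have e : restrictₗ L (X.basicOpen_le h) s = restrictₗ L (X.basicOpen_le h) 0 := hs
  obtain ⟨⟨_, n, rfl⟩, hn⟩ :=
    (IsLocalizedModule.eq_iff_exists (Submonoid.powers h) (restrictₗ L (X.basicOpen_le h))).mp e
  exact ⟨n, hn.trans (smul_zero _)⟩

end Sec

end LineSys

end Fermat.Agent.Jacobian
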