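/-
Pullback of sections as a base change, and linearity over the functions on a base.
-/
import Fermat.Agent.Jacobian.Line.Affine
import Fermat.Agent.Jacobian.Core.Cech

set_option autoImplicit false
set_option linter.unusedVariables false

universe u

open CategoryTheory AlgebraicGeometry TopologicalSpace Opposite

noncomputable section

namespace Fermat.Agent.Jacobian

namespace LineSys

variable {X Y : Scheme.{u}} {L : LineSys X} (f : Y ⟶ X) {V : X.Opens} {V' : Y.Opens}
  (e : V' ≤ f ⁻¹ᵁ V)

namespace Sec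

theorem pull_add (s t : L.Sec V) : (s + t).pull f e = s.pull f e + t.pull f e := by
  ext y W h hy
  exact map_add _ _ _

theorem pull_smul (r : Γ(X, V)) (s : L.Sec V) :
    (r • s).pull f e = f.appLE V V' e r • s.pull f e := by
  ext y W h hy
  show f.appLE _ W _ (res inf_le_left r * _) = res h (f.appLE V V' e r) * _
  rw [map_mul, appLE_res, res_appLE]
  rfl

theorem pull_restrict {V₁ : X.Opens} (h : V₁ ≤ V) {V₁' : Y.Opens} (h' : V₁' ≤ V')
    (e₁ : V₁' ≤ f ⁻¹ᵁ V₁) (s : L.Sec V) :
    (s.restrict h).pull f e₁ = (s.pull f e).restrict h' := by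
  ext y W hW hy
  rw [coord_restrict, coord_pull f e₁ _ y W hW hy (V₁ ⊓ L.U (f y)) inf_le_left inf_le_right
      (fun _ hp => ⟨e₁ (hW hp), hy hp⟩),
    coord_pull f e s y W (hW.trans h') hy (V₁ ⊓ L.U (f y)) (inf_le_left.trans h) inf_le_right
      (fun _ hp => ⟨e₁ (hW hp), hy hp⟩)]
  rfl

theorem pull_trivSec_coord (y : Y) (W : Y.Opens) (h : W ≤ V')
    (hy : W ≤ ((triv X).pull f).U y) : ((trivSec X V).pull f e).coord y W h hy = 1 :=
  map_one _

/-- The pullback of a section of the dual, in the dual of the pullback. -/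
def pullDual (t : L.dual.Sec V) : (L.pull f).dual.Sec V' :=
  mk' (fun y W h hy => (t.pull f e).coord y W h hy) (fun y W W' i h hy => coord_res _ y i h hy)
    (fun y z W h hy hz => by
      refine ((t.pull f e).coord_g y z W h hy hz).trans (congrArg (· * _) ?_)
      refine congrArg Units.val ?_
      show appU f _ (L.g (f y) (f z) _ _ _)⁻¹ = ((L.pull f).g y z W hy hz)⁻¹
      rw [map_inv]
      rfl)

theorem pair_pull (s : L.Sec V) (t : L.dual.Sec V) :
    (s.pull f e).pair (pullDual f e t) = f.appLE V V' e (s.pair t) :=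
  fun_ext_frames (L := L.pull f) fun y W h hy => by
    rw [res_pair _ _ y W h hy, res_appLE]
    have hT : W ≤ f ⁻¹ᵁ (V ⊓ L.U (f y)) := fun _ hp => ⟨e (h hp), hy hp⟩
    show f.appLE (V ⊓ L.U (f y)) W hT _ * f.appLE (V ⊓ L.U (f y)) W hT _ = _
    refine (map_mul _ _ _).symm.trans ?_
    exact (congrArg _ (res_pair s t (f y) (V ⊓ L.U (f y)) inf_le_left inf_le_right).symm).trans
      (appLE_res f inf_le_left hT _)

/-- The module structure on the sections of a pullback over the functions downstairs. -/
@[reducible] def pullModule (L : LineSys X) : Module Γ(X, V) ((L.pull f).Sec V') :=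
  Module.compHom ((L.pull f).Sec V') (f.appLE V V' e).hom

/-- Pullback of sections as a linear map. -/
def pullₗ (L : LineSys X) :
    letI := pullModule f e L
    L.Sec V →ₗ[Γ(X, V)] (L.pull f).Sec V' :=
  letI := pullModule f e L
  { toFun := fun s => s.pull f e
    map_add' := pull_add f e
    map_smul' := pull_smul f e }

/-- A dual basis pulls back to a dual basis. -/
theorem sum_pair_pull {n : ℕ} {s : Fin n → L.Sec V} {t : Fin n → L.dual.Sec V}
    (h1 : ∑ i, (s i).pair (t i) = 1) :
    ∑ i, ((s i).pull f e).pair (pullDual f e (t i)) = 1 := by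
  simp only [pair_pull, ← map_sum, h1, map_one]

/-- Pullback from an affine open is a base change. -/
theorem isBaseChange_pull {W : X.Opens} {W' : Y.Opens} (hW : IsAffineOpen W) (e : W' ≤ f ⁻¹ᵁ W) :
    letI := (f.appLE W W' e).hom.toAlgebra
    letI := pullModule f e L
    haveI : IsScalarTower Γ(X, W) Γ(Y, W') ((L.pull f).Sec W') :=
      IsScalarTower.of_algebraMap_smul fun _ _ => rfl
    IsBaseChange Γ(Y, W') (pullₗ f e L) := by
  let := (f.appLE W W' e).hom.toAlgebra
  let := pullModule f e L
  have : IsScalarTower Γ(X, W) Γ(Y, W') ((L.pull f).Sec W') :=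
    IsScalarTower.of_algebraMap_smul fun _ _ => rfl
  obtain ⟨n, s, t, h1⟩ := exists_dual_basis L hW
  exact isBaseChange_of_dualBasis (pullₗ f e L) s (fun i => pairₗ.flip (t i))
    (fun i => pairₗ.flip (pullDual f e (t i))) (sum_pair_smul h1)
    (sum_pair_smul (sum_pair_pull f e h1)) fun i a => pair_pull f e a (t i)

/-- Pullbacks of sections from an affine open span. -/
theorem span_range_pull {W : X.Opens} {W' : Y.Opens} (hW : IsAffineOpen W) (e : W' ≤ f ⁻¹ᵁ W) :
    Submodule.span Γ(Y, W') (Set.range fun s : L.Sec W => s.pull f e) = ⊤ := by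
  obtain ⟨n, s, t, h1⟩ := exists_dual_basis L hW
  refine eq_top_iff.mpr fun z _ => ?_
  rw [← sum_pair_smul (sum_pair_pull f e h1) z]
  exact Submodule.sum_mem _ fun i _ => Submodule.smul_mem _ _ (Submodule.subset_span ⟨s i, rfl⟩)

end Sec

/-- Transport commutes with pullback. -/
theorem Iso.secMap_pull {L' : LineSys X} (i : Iso L L') (s : L.Sec V) :
    (i.pull f).secMap V' (s.pull f e) = (i.secMap V s).pull f e :=
  (i.pull f).secMap_eq_of_isImage fun y a W hW hy ha => by
    let T := V ⊓ L.U (f y) ⊓ L'.U (f a)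
    have hT : W ≤ f ⁻¹ᵁ T := fun _ hp => ⟨⟨e (hW hp), hy hp⟩, ha hp⟩
    have hV : T ≤ V := inf_le_left.trans inf_le_left
    have hTy : T ≤ L.U (f y) := inf_le_left.trans inf_le_right
    have hTa : T ≤ L'.U (f a) := inf_le_right
    rw [Sec.coord_pull f e s y W hW hy T hV hTy hT,
      Sec.coord_pull f e (i.secMap V s) a W hW ha T hV hTa hT,
      i.isImage_secMap s (f y) (f a) T hV hTy hTa, map_mul]
    refine congrArg (· * _) ?_
    show f.appLE T W hT (i.h (f y) (f a) T hTy hTa : Γ(X, T)) =
      f.appLE (L.U (f y) ⊓ L'.U (f a)) W (fun _ hp => ⟨hy hp, ha hp⟩)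
        (i.h (f y) (f a) _ inf_le_left inf_le_right : Γ(X, L.U (f y) ⊓ L'.U (f a)))
    rw [← congrArg Units.val (i.h_res (f y) (f a) (le_inf hTy hTa) inf_le_left inf_le_right)]
    exact appLE_res f _ hT _

end LineSys

/-! ### Linearity over the base -/

section Over

variable {X X' T T' : Scheme.{u}} (p : X ⟶ T) {L L' : LineSys X}

theorem SecOver.smul_def {V : X.Opens} (r : Γ(T, ⊤)) (s : SecOver p L V) :
    r • s = (show SecOver p L V from baseHom p V r • (show L.Sec V from s)) := rfl

/-- Transport along an isomorphism, linear over the base. -/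
def secOverMap (e : LineSys.Iso L L') (V : X.Opens) :
    SecOver p L V ≃ₗ[Γ(T, ⊤)] SecOver p L' V where
  toFun s := e.secMap V s
  invFun s := (e.secMap V).symm s
  map_add' s t := (e.secMap V).map_add s t
  map_smul' r s := (e.secMap V).map_smul (baseHom p V r) s
  left_inv := (e.secMap V).left_inv
  right_inv := (e.secMap V).right_inv

theorem secOverMap_secRes (e : LineSys.Iso L L') {V V' : X.Opens} (h : V' ≤ V)
    (s : SecOver p L V) :
    secOverMap p e V' (secRes p L h s) = secRes p L' h (secOverMap p e V s) :=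
  e.secMap_restrict h s

/-- Sections of the trivial system, linear over the base. -/
def secOverTriv (V : X.Opens) :
    letI := Module.compHom Γ(X, V) (baseHom p V)
    SecOver p (LineSys.triv X) V ≃ₗ[Γ(T, ⊤)] Γ(X, V) :=
  letI := Module.compHom Γ(X, V) (baseHom p V)
  { toFun := fun s => LineSys.trivEquiv V s
    invFun := fun r => (LineSys.trivEquiv V).symm r
    map_add' := fun s t => (LineSys.trivEquiv V).map_add s t
    map_smul' := fun r s => (LineSys.trivEquiv V).map_smul (baseHom p V r) s
    left_inv := (LineSys.trivEquiv V).left_inv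
    right_inv := (LineSys.trivEquiv V).right_inv }

/-- Pullback of sections, semilinear over the map of bases. -/
def secOverPull {p' : X' ⟶ T'} (f : X' ⟶ X) (b : T' ⟶ T) (hb : f ≫ p = p' ≫ b) {V : X.Opens}
    {V' : X'.Opens} (e : V' ≤ f ⁻¹ᵁ V) :
    SecOver p L V →ₛₗ[(b.appLE ⊤ ⊤ (fun _ _ => trivial)).hom] SecOver p' (L.pull f) V' where
  toFun s := LineSys.Sec.pull f e s
  map_add' s t := LineSys.Sec.pull_add f e s t
  map_smul' r s := by
    refine (LineSys.Sec.pull_smul f e (baseHom p V r) s).trans ?_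
    refine congrArg (fun a => a • LineSys.Sec.pull f e (L := L) s) ?_
    show f.appLE V V' e (p.appLE ⊤ V (fun _ _ => trivial) r) =
      p'.appLE ⊤ V' (fun _ _ => trivial) (b.appLE ⊤ ⊤ (fun _ _ => trivial) r)
    rw [← ConcreteCategory.comp_apply, ← ConcreteCategory.comp_apply,
      Scheme.Hom.appLE_comp_appLE, Scheme.Hom.appLE_comp_appLE]
    simp only [hb]

end Over

end Fermat.Agent.Jacobian
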